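/-
Project S33 (ordinary at `p ∥ N`), cell [S33-ALG], the Nakayama / Krull / basis half of [ALG-TOP]
(helper17).  Prefix `s33at_`.  Namespace `Fermat.Agent.S33`.  Mathlib only.

Let `T` be a noetherian local ring, `V` a free `T`-module of rank `2` and `M ⊆ V` a submodule such
that, for every `n`, the quotient `V / (M + 𝔪 ^ n V)` is free of rank one over `T / 𝔪 ^ n`
(generated by the class of some `w` with annihilator `𝔪 ^ n`).  Then `M` is a free direct summand
of rank one: there is a basis `b` of `V` with `M = T ∙ b 0`.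

[`n = 1` and Nakayama: `V = M + T w`.  The annihilator of `V / M` lies in every `𝔪 ^ n`, hence is
zero (Krull's intersection theorem; no completeness is needed).  So `V = M ⊕ T w` with `T w ≅ T`,
`M` is projective, hence free, of rank `2 - 1 = 1`.]

* `s33at_split`   : the abstract splitting `(m, t) ↦ m + t • w : M × T ≃ V`;
* `s33at_basis`   : the basis from a splitting;
* **`s33at_top`** : the statement above;
* `s33at_top_ideals` : the same with a cofinal family of ideals `J` instead of the `𝔪 ^ n`.
-/
import Mathlib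

set_option autoImplicit false
set_option linter.unusedSectionVars false

noncomputable section

namespace Fermat.Agent.S33

open IsLocalRing

section Split

variable {T : Type*} [CommRing T] {V : Type*} [AddCommGroup V] [Module T V]

/-- the map `(m, t) ↦ m + t • w` -/
def s33at_sum (M : Submodule T V) (w : V) : (↥M × T) →ₗ[T] V :=
  M.subtype.coprod (LinearMap.toSpanSingleton T V w)

theorem s33at_sum_apply (M : Submodule T V) (w : V) (x : ↥M × T) :
    s33at_sum M w x = (x.1 : V) + x.2 • w := by
  rw [s33at_sum, LinearMap.coprod_apply, Submodule.subtype_apply,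
    LinearMap.toSpanSingleton_apply]

/-- **the splitting** `M × T ≃ V` when `V = M + T w` and `t • w ∈ M → t = 0` -/
def s33at_split (M : Submodule T V) (w : V) (hspan : M ⊔ T ∙ w = ⊤)
    (hinj : ∀ t : T, t • w ∈ M → t = 0) : (↥M × T) ≃ₗ[T] V :=
  LinearEquiv.ofBijective (s33at_sum M w) (by
    constructor
    · rw [← LinearMap.ker_eq_bot, LinearMap.ker_eq_bot']
      rintro ⟨m, t⟩ h
      rw [s33at_sum_apply] at h
      have h1 : t • w = -(m : V) := by
        rw [eq_neg_iff_add_eq_zero, add_comm]; exact h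
      have h2 : t = 0 := hinj t (by rw [h1]; exact M.neg_mem m.2)
      have h3 : (m : V) = 0 := by
        rw [h2, zero_smul] at h1
        exact neg_eq_zero.mp h1.symm
      exact Prod.ext (Subtype.ext h3) h2
    · intro v
      have hv : v ∈ M ⊔ T ∙ w := by rw [hspan]; exact Submodule.mem_top
      obtain ⟨m, hm, y, hy, rfl⟩ := Submodule.mem_sup.mp hv
      obtain ⟨t, rfl⟩ := Submodule.mem_span_singleton.mp hy
      exact ⟨(⟨m, hm⟩, t), s33at_sum_apply M w _⟩)

theorem s33at_split_apply (M : Submodule T V) (w : V) (hspan : M ⊔ T ∙ w = ⊤)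
    (hinj : ∀ t : T, t • w ∈ M → t = 0) (x : ↥M × T) :
    s33at_split M w hspan hinj x = (x.1 : V) + x.2 • w :=
  s33at_sum_apply M w x

end Split

section Basis

variable {T : Type*} [CommRing T] [IsLocalRing T] {V : Type*} [AddCommGroup V] [Module T V]
  [Module.Free T V] [Module.Finite T V]

/-- **the basis from a splitting**: if `V` is free of rank `2`, `V = M + T w` and
`t • w ∈ M → t = 0`, then `M = T ∙ b 0` for a basis `b` of `V` (with `b 1 = w`). -/
theorem s33at_basis (hrk : Module.finrank T V = 2) (M : Submodule T V) (w : V)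
    (hspan : M ⊔ T ∙ w = ⊤) (hinj : ∀ t : T, t • w ∈ M → t = 0) :
    ∃ b : Module.Basis (Fin 2) T V, M = T ∙ b 0 ∧ b 1 = w := by
  set e := s33at_split M w hspan hinj with he
  -- `M × T` is free and finite
  have hfree : Module.Free T (↥M × T) := Module.Free.of_equiv e.symm
  have hfin : Module.Finite T (↥M × T) := Module.Finite.equiv e.symm
  -- `M` is finite and projective, hence free
  have hMfin : Module.Finite T ↥M :=
    Module.Finite.of_surjective (LinearMap.fst T ↥M T) LinearMap.fst_surjective
  have hMproj : Module.Projective T ↥M :=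
    Module.Projective.of_split (LinearMap.inl T ↥M T) (LinearMap.fst T ↥M T)
      (LinearMap.fst_comp_inl T ↥M T)
  have hMfree : Module.Free T ↥M := Module.free_of_flat_of_isLocalRing
  -- the rank of `M`
  have hrkM : Module.finrank T ↥M = 1 := by
    have h1 : Module.finrank T (↥M × T) = 2 := by rw [LinearEquiv.finrank_eq e, hrk]
    rw [Module.finrank_prod, Module.finrank_self] at h1
    omega
  -- bases
  let bM : Module.Basis (Fin 1) T ↥M := Module.finBasisOfFinrankEq T ↥M hrkM
  let bT : Module.Basis (Fin 1) T T := Module.Basis.singleton (Fin 1) T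
  let b : Module.Basis (Fin 2) T V := ((bM.prod bT).map e).reindex finSumFinEquiv
  have hb0 : b 0 = (bM 0 : V) := by
    have h0 : (finSumFinEquiv (m := 1) (n := 1)).symm 0 = Sum.inl 0 := by
      rw [Equiv.symm_apply_eq]; rfl
    show ((bM.prod bT).map e).reindex finSumFinEquiv 0 = _
    rw [Module.Basis.reindex_apply, h0, Module.Basis.map_apply, Module.Basis.prod_apply,
      Sum.elim_inl, Function.comp_apply, he, s33at_split_apply]
    simp
  have hb1 : b 1 = w := by
    have h1 : (finSumFinEquiv (m := 1) (n := 1)).symm 1 = Sum.inr 0 := by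
      rw [Equiv.symm_apply_eq]; rfl
    show ((bM.prod bT).map e).reindex finSumFinEquiv 1 = _
    rw [Module.Basis.reindex_apply, h1, Module.Basis.map_apply, Module.Basis.prod_apply,
      Sum.elim_inr, Function.comp_apply, he, s33at_split_apply]
    simp [bT]
  refine ⟨b, ?_, hb1⟩
  rw [hb0]
  -- `M = T ∙ bM 0`
  have h1 : (⊤ : Submodule T ↥M) = T ∙ bM 0 := by
    rw [← bM.span_eq]
    congr 1
    ext x
    constructor
    · rintro ⟨i, rfl⟩
      rw [Subsingleton.elim i 0]
      exact Set.mem_singleton _
    · intro hx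
      rw [Set.mem_singleton_iff] at hx
      exact ⟨0, hx.symm⟩
  have h2 := congrArg (Submodule.map M.subtype) h1
  rw [Submodule.map_subtype_top, Submodule.map_span, Set.image_singleton,
    Submodule.subtype_apply] at h2
  exact h2

end Basis

section Top

variable {T : Type*} [CommRing T] [IsLocalRing T] [IsNoetherianRing T]
  {V : Type*} [AddCommGroup V] [Module T V] [Module.Free T V] [Module.Finite T V]

/-- **[ALG-TOP], abstract, with a cofinal family of ideals**: if for every `n` there is an ideal
`J ≤ 𝔪 ^ n` such that `V / (M + J V)` is generated by the class of some `w` with annihilator `J`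
(and this holds for `J = 𝔪`), then `M = T ∙ b 0` for a basis `b` of `V`. -/
theorem s33at_top_ideals (hrk : Module.finrank T V = 2) (M : Submodule T V)
    (h1 : ∃ w : V, M ⊔ (maximalIdeal T) • (⊤ : Submodule T V) ⊔ T ∙ w = ⊤)
    (h : ∀ n : ℕ, ∃ J : Ideal T, J ≤ maximalIdeal T ^ n ∧ ∃ w : V,
      M ⊔ J • (⊤ : Submodule T V) ⊔ T ∙ w = ⊤ ∧
      ∀ t : T, t • w ∈ M ⊔ J • (⊤ : Submodule T V) → t ∈ J) :
    ∃ b : Module.Basis (Fin 2) T V, M = T ∙ b 0 := by
  obtain ⟨w, hw⟩ := h1
  -- Nakayama: `V = M + T w`
  have hspan : M ⊔ T ∙ w = ⊤ := by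
    rw [eq_top_iff]
    refine Submodule.le_of_le_smul_of_le_jacobson_bot (I := maximalIdeal T)
      (Module.Finite.fg_top) (IsLocalRing.maximalIdeal_le_jacobson ⊥) ?_
    refine hw.ge.trans ?_
    exact sup_le (sup_le (le_sup_of_le_left le_sup_left) le_sup_right)
      (le_sup_of_le_left le_sup_right)
  -- Krull: the annihilator of `V / M` is zero
  have hinj : ∀ t : T, t • w ∈ M → t = 0 := by
    intro t ht
    have htV : ∀ v : V, t • v ∈ M := by
      intro v
      have hv : v ∈ M ⊔ T ∙ w := by rw [hspan]; exact Submodule.mem_top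
      obtain ⟨m, hm, y, hy, rfl⟩ := Submodule.mem_sup.mp hv
      obtain ⟨s, rfl⟩ := Submodule.mem_span_singleton.mp hy
      rw [smul_add, smul_comm]
      exact M.add_mem (M.smul_mem t hm) (M.smul_mem s ht)
    have hmem : t ∈ ⨅ n : ℕ, maximalIdeal T ^ n := by
      rw [Ideal.mem_iInf]
      intro n
      obtain ⟨J, hJ, wn, -, hwn⟩ := h n
      exact hJ (hwn t (Submodule.mem_sup_left (htV wn)))
    rw [Ideal.iInf_pow_eq_bot_of_isLocalRing (maximalIdeal T) Ideal.IsPrime.ne_top'] at hmem
    exact hmem
  obtain ⟨b, hb, -⟩ := s33at_basis hrk M w hspan hinj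
  exact ⟨b, hb⟩

/-- **[ALG-TOP], abstract**: if `V / (M + 𝔪 ^ n V)` is free of rank one over `T / 𝔪 ^ n` for every
`n`, then `M = T ∙ b 0` for a basis `b` of `V`. -/
theorem s33at_top (hrk : Module.finrank T V = 2) (M : Submodule T V)
    (h : ∀ n : ℕ, ∃ w : V, M ⊔ (maximalIdeal T ^ n) • (⊤ : Submodule T V) ⊔ T ∙ w = ⊤ ∧
      ∀ t : T, t • w ∈ M ⊔ (maximalIdeal T ^ n) • (⊤ : Submodule T V) → t ∈ maximalIdeal T ^ n) :
    ∃ b : Module.Basis (Fin 2) T V, M = T ∙ b 0 := by
  refine s33at_top_ideals hrk M ?_ (fun n => ⟨maximalIdeal T ^ n, le_rfl, h n⟩)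
  obtain ⟨w, hw, -⟩ := h 1
  rw [pow_one] at hw
  exact ⟨w, hw⟩

end Top

end Fermat.Agent.S33
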