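/-
Project S33 (ordinary at `p ∥ N`), cell [S33-ALG], the wrapper from [ALG-TOP] to the frozen
`GaloisRepAdic.IsOrdinaryAt` (helper17).  Prefix `s33at_`.  Namespace `Fermat.Agent.S33`.
Mathlib + Prelude + `S33/Alg/Top.lean`.

For `ρ : GaloisRepAdic T` and a place `P` of `Q̄`, `s33at_M ρ P := (I_P - 1) V` is the `T`-span of
the `ρ σ v - v`, `σ ∈ I_P`.  It is `D_P`-stable (`I_P` is normal in `D_P`), and `I_P` acts trivially
on `V / (I_P - 1) V`; so `ρ` is ordinary at `p` as soon as `(I_P - 1) V = T ∙ b 0` for a basis `b`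
of `V`, for every `P` over `p` — which `s33at_top` gives when every `V / ((I_P - 1) V + 𝔪 ^ n V)` is
free of rank one over `T / 𝔪 ^ n`.
-/
import Mathlib
import Fermat.Prelude.Def_GaloisRep_LocalConditions
import Fermat.Agent.S33.Alg.Top

set_option autoImplicit false
set_option linter.unusedSectionVars false

noncomputable section

namespace Fermat.Agent.S33

open IsLocalRing

variable {T : Type} [CommRing T] [IsLocalRing T]

/-- `(I_P - 1) V`: the span of the `ρ σ v - v`, `σ ∈ I_P` -/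
def s33at_M (ρ : GaloisRepAdic T) (P : ValuationSubring (AlgebraicClosure ℚ)) :
    Submodule T ρ.V :=
  Submodule.span T {x : ρ.V | ∃ σ ∈ P.inertiaSubgroupIn ℚ, ∃ v : ρ.V, x = ρ.ρ σ v - v}

theorem s33at_sub_mem_M (ρ : GaloisRepAdic T) (P : ValuationSubring (AlgebraicClosure ℚ))
    {σ : AlgebraicClosure ℚ ≃ₐ[ℚ] AlgebraicClosure ℚ} (hσ : σ ∈ P.inertiaSubgroupIn ℚ)
    (v : ρ.V) : ρ.ρ σ v - v ∈ s33at_M ρ P :=
  Submodule.subset_span ⟨σ, hσ, v, rfl⟩

/-- the inertia group is normalised by the decomposition group -/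
theorem s33at_inertia_conj (P : ValuationSubring (AlgebraicClosure ℚ))
    {τ s : AlgebraicClosure ℚ ≃ₐ[ℚ] AlgebraicClosure ℚ}
    (hτ : τ ∈ P.decompositionSubgroup ℚ) (hs : s ∈ P.inertiaSubgroupIn ℚ) :
    τ * s * τ⁻¹ ∈ P.inertiaSubgroupIn ℚ := by
  obtain ⟨x, hx, rfl⟩ := hs
  have hn : (ValuationSubring.inertiaSubgroup ℚ P).Normal := by
    unfold ValuationSubring.inertiaSubgroup
    infer_instance
  have := hn.conj_mem x hx ⟨τ, hτ⟩
  exact ⟨_, this, rfl⟩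

/-- `(I_P - 1) V` is stable under the decomposition group -/
theorem s33at_M_stable (ρ : GaloisRepAdic T) (P : ValuationSubring (AlgebraicClosure ℚ))
    {τ : AlgebraicClosure ℚ ≃ₐ[ℚ] AlgebraicClosure ℚ} (hτ : τ ∈ P.decompositionSubgroup ℚ)
    {x : ρ.V} (hx : x ∈ s33at_M ρ P) : ρ.ρ τ x ∈ s33at_M ρ P := by
  unfold s33at_M at hx
  induction hx using Submodule.span_induction with
  | mem x hx =>
    obtain ⟨σ, hσ, v, rfl⟩ := hx
    have h1 : ρ.ρ τ (ρ.ρ σ v - v) = ρ.ρ (τ * σ * τ⁻¹) (ρ.ρ τ v) - ρ.ρ τ v := by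
      rw [map_sub]
      congr 1
      rw [← Module.End.mul_apply, ← Module.End.mul_apply, ← map_mul, ← map_mul,
        inv_mul_cancel_right]
    rw [h1]
    exact s33at_sub_mem_M ρ P (s33at_inertia_conj P hτ hσ) _
  | zero => rw [map_zero]; exact Submodule.zero_mem _
  | add x y _ _ hx hy => rw [map_add]; exact Submodule.add_mem _ hx hy
  | smul a x _ hx => rw [map_smul]; exact Submodule.smul_mem _ a hx

/-- **`IsOrdinaryAt` from `(I_P - 1) V = T ∙ b 0`** -/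
theorem s33at_isOrdinaryAt (ρ : GaloisRepAdic T) (p : ℕ)
    (h : ∀ P : ValuationSubring (AlgebraicClosure ℚ), P.LiesOverPrime p →
      ∃ b : Module.Basis (Fin 2) T ρ.V, s33at_M ρ P = T ∙ b 0) :
    ρ.IsOrdinaryAt p := by
  intro P hP
  obtain ⟨b, hb⟩ := h P hP
  exact ⟨s33at_M ρ P, ⟨b, hb⟩, fun σ hσ v hv => s33at_M_stable ρ P hσ hv,
    fun σ hσ v => s33at_sub_mem_M ρ P hσ v⟩

/-- **[ALG-TOP]**: `ρ` is ordinary at `p` if, for every place `P` over `p` and every `n`,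
`V / ((I_P - 1) V + 𝔪 ^ n V)` is free of rank one over `T / 𝔪 ^ n`. -/
theorem s33at_ordinary_of_levels [IsNoetherianRing T] (ρ : GaloisRepAdic T) (p : ℕ)
    (h : ∀ P : ValuationSubring (AlgebraicClosure ℚ), P.LiesOverPrime p → ∀ n : ℕ, ∃ w : ρ.V,
      s33at_M ρ P ⊔ (maximalIdeal T ^ n) • (⊤ : Submodule T ρ.V) ⊔ T ∙ w = ⊤ ∧
      ∀ t : T, t • w ∈ s33at_M ρ P ⊔ (maximalIdeal T ^ n) • (⊤ : Submodule T ρ.V) →
        t ∈ maximalIdeal T ^ n) :
    ρ.IsOrdinaryAt p :=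
  s33at_isOrdinaryAt ρ p fun P hP => s33at_top ρ.finrank_eq (s33at_M ρ P) (h P hP)

/-- the same with a cofinal family of ideals -/
theorem s33at_ordinary_of_ideals [IsNoetherianRing T] (ρ : GaloisRepAdic T) (p : ℕ)
    (h1 : ∀ P : ValuationSubring (AlgebraicClosure ℚ), P.LiesOverPrime p → ∃ w : ρ.V,
      s33at_M ρ P ⊔ (maximalIdeal T) • (⊤ : Submodule T ρ.V) ⊔ T ∙ w = ⊤)
    (h : ∀ P : ValuationSubring (AlgebraicClosure ℚ), P.LiesOverPrime p → ∀ n : ℕ,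
      ∃ J : Ideal T, J ≤ maximalIdeal T ^ n ∧ ∃ w : ρ.V,
        s33at_M ρ P ⊔ J • (⊤ : Submodule T ρ.V) ⊔ T ∙ w = ⊤ ∧
        ∀ t : T, t • w ∈ s33at_M ρ P ⊔ J • (⊤ : Submodule T ρ.V) → t ∈ J) :
    ρ.IsOrdinaryAt p :=
  s33at_isOrdinaryAt ρ p fun P hP =>
    s33at_top_ideals ρ.finrank_eq (s33at_M ρ P) (h1 P hP) (h P hP)

end Fermat.Agent.S33
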